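import Fermat.Agent.S33.ND.Deg
import Fermat.Agent.S33.ND.EmbAbs
import Fermat.Agent.GS.WQ
import Fermat.Agent.GS.FW.NormAbs
import Fermat.Agent.LP.Dep.Trace

/-!
# S33-ND, file Emb: the `p + 1` embeddings of `F = FF Q̄ (p M0)` over `F0 = FF Q̄ M0`; norm and trace

`V = qExpand p`.  The `p + 1` ring homomorphisms `F → Q̄((t))`
  `emb none = V`,   `emb (some j) = scaleHom (ζ^j) ∘ w`   (`j < p`)
all restrict to `V` on `F0` (`IsWQ.apply_of_mem`: `w = V` on `F0`; `GT.EMB.Level_scaleHom_qExpand`: `scaleHom (ζ^j)` fixes the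
series in `t^p`) and are pairwise distinct (test element `j(t^p)`: `emb none` gives `j(t^(p²))`, coefficient `0` at `t⁻¹`;
`emb (some j)` gives `j(ζ^j t)`, coefficient `ζ^(-j)` at `t⁻¹`).
THIS IS `GS/FW/NormId.lean` (`mul_normT_mem`) in the convention `p * M0`, `IsWQ`: copy that proof.
Then  `V (N x) = ∏ emb i x = V x * ∏_j scaleHom (ζ^j) (w x) = V (x * normT p ζ (w x))`  (`GR.qExpand_normT`),
      `V (Tr x) = ∑ emb i x = V x + ∑_j scaleHom (ζ^j) (w x) = V (x + C p * Uop p (w x))`  (`LP.Dep.sum_scaleHom`),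
and `V` is injective (`qExpand_injective`).
-/

set_option autoImplicit false
set_option synthInstance.maxHeartbeats 400000

noncomputable section

namespace Fermat.Agent.S33.ND

open Fermat.Agent.GR Fermat.Agent.GS Fermat.Agent.GS.Inst ModularCurve

variable {p M0 : ℕ}

/-- the `p + 1` embeddings. -/
def emb [NeZero p] (w : FF Qbar (p * M0) ≃ₐ[Qbar] FF Qbar (p * M0)) (ζ : Qbarˣ) :
    Option (Fin p) → FF Qbar (p * M0) →+* LaurentSeries Qbar
  | none => (qExpand Qbar p).comp (FF Qbar (p * M0)).val.toRingHom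
  | some j => (scaleHom (ζ ^ (j : ℕ))).comp
      ((FF Qbar (p * M0)).val.toRingHom.comp (w : FF Qbar (p * M0) →+* FF Qbar (p * M0)))

theorem Emb_coprime (hp : p.Prime) (hpM : ¬ p ∣ M0) : p.Coprime M0 :=
  (Nat.Prime.coprime_iff_not_dvd hp).2 hpM

theorem Emb_neZero [NeZero p] [NeZero M0] : NeZero (p * M0) :=
  ⟨mul_ne_zero (NeZero.ne p) (NeZero.ne M0)⟩

theorem emb_none [NeZero p] (w : FF Qbar (p * M0) ≃ₐ[Qbar] FF Qbar (p * M0)) (ζ : Qbarˣ)
    (x : FF Qbar (p * M0)) : emb w ζ none x = qExpand Qbar p (x : LaurentSeries Qbar) := rfl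

theorem emb_some [NeZero p] (w : FF Qbar (p * M0) ≃ₐ[Qbar] FF Qbar (p * M0)) (ζ : Qbarˣ)
    (j : Fin p) (x : FF Qbar (p * M0)) :
    emb w ζ (some j) x =
      scaleHom (ζ ^ (j : ℕ)) ((w x : FF Qbar (p * M0)) : LaurentSeries Qbar) := rfl

theorem emb_algebraMap [NeZero p] [NeZero M0] (hp : p.Prime) (hpM : ¬ p ∣ M0)
    {w : FF Qbar (p * M0) ≃ₐ[Qbar] FF Qbar (p * M0)} (hw : IsWQ Qbar p M0 w) (ζ : Qbarˣ)
    (hζ : IsPrimitiveRoot ζ p) (i : Option (Fin p)) (a : FF Qbar M0) :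
    emb w ζ i (algebraMap (FF Qbar M0) (FF Qbar (p * M0)) a) =
      qExpand Qbar p (a : LaurentSeries Qbar) := by
  have : NeZero (p * M0) := Emb_neZero
  obtain ⟨ι⟩ := nonempty_Qbar_hom
  cases i with
  | none => rw [emb_none, coe_algebraMap_FF]
  | some j =>
    rw [emb_some, hw.apply_of_mem ι (Emb_coprime hp hpM) _
      (by rw [coe_algebraMap_FF]; exact a.2), coe_algebraMap_FF]
    exact GT.EMB.Level_scaleHom_qExpand p _
      (by rw [← pow_mul, mul_comm, pow_mul, hζ.pow_eq_one, one_pow]) _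

theorem emb_injective [NeZero p] [NeZero M0] (hp : p.Prime) (hpM : ¬ p ∣ M0)
    {w : FF Qbar (p * M0) ≃ₐ[Qbar] FF Qbar (p * M0)} (hw : IsWQ Qbar p M0 w) (ζ : Qbarˣ)
    (hζ : IsPrimitiveRoot ζ p) : Function.Injective (emb w ζ) := by
  have : NeZero (p * 1) := ⟨by rw [mul_one]; exact NeZero.ne p⟩
  have : NeZero (1 * 1) := ⟨by norm_num⟩
  have hy₁ : qExpand Qbar (p * 1) (jqModC Qbar) ∈ FF Qbar (p * M0) :=
    IntermediateField.subset_adjoin _ _
      (mem_divisorExpansionsC Qbar (p * M0) (by rw [mul_one]; exact Dvd.intro M0 rfl))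
  have hwy := hw p 1 1 (mul_one p) (one_dvd _) ⟨_, hy₁⟩ rfl
  have hsome : ∀ j : Fin p, (emb w ζ (some j) ⟨_, hy₁⟩).coeff (-1) =
      (((ζ ^ (j : ℕ)) ^ (-1 : ℤ) : Qbarˣ) : Qbar) := by
    intro j
    rw [emb_some, hwy, scaleHom_coeff]
    have h1 : qExpand Qbar (1 * 1) (jqModC Qbar) = jqModC Qbar := by
      have h2 : qExpand Qbar (1 * 1) (jqModC Qbar) = qExpand Qbar 1 (jqModC Qbar) := rfl
      rw [h2, qExpand_one_apply]
    rw [h1, coeff_jqModC_neg_one, mul_one]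
  have hnone : (emb w ζ none ⟨_, hy₁⟩).coeff (-1) = 0 := by
    rw [emb_none]
    refine qExpand_coeff_of_not_dvd p _ ?_
    intro hdvd
    have h1 : (p : ℤ) ∣ 1 := (dvd_neg.1 hdvd)
    have h2 : p ∣ 1 := by exact_mod_cast h1
    exact hp.one_lt.ne' (Nat.dvd_one.1 h2)
  intro i i' hii
  have hc : (emb w ζ i ⟨_, hy₁⟩).coeff (-1) = (emb w ζ i' ⟨_, hy₁⟩).coeff (-1) := by rw [hii]
  cases i with
  | none =>
    cases i' with
    | none => rfl
    | some j' =>
      rw [hnone, hsome] at hc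
      exact absurd hc.symm (Units.ne_zero _)
  | some j =>
    cases i' with
    | none =>
      rw [hnone, hsome] at hc
      exact absurd hc (Units.ne_zero _)
    | some j' =>
      rw [hsome, hsome] at hc
      have h1 : (ζ ^ (j : ℕ)) ^ (-1 : ℤ) = (ζ ^ (j' : ℕ)) ^ (-1 : ℤ) := Units.ext hc
      rw [zpow_neg_one, zpow_neg_one, inv_inj] at h1
      have h2 := hζ.pow_inj j.2 j'.2 h1
      exact congrArg some (Fin.ext h2)

theorem Emb_isSeparable [NeZero M0] (hp : p.Prime) (hpM : ¬ p ∣ M0) :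
    Algebra.IsSeparable (FF Qbar M0) (FF Qbar (p * M0)) := by
  have hfd : Module.Finite (FF Qbar M0) (FF Qbar (p * M0)) := finite_FF hp hpM
  have hchar : CharZero (FF Qbar M0) := inferInstance
  have hperf : PerfectField (FF Qbar M0) := inferInstance
  have halg : Algebra.IsAlgebraic (FF Qbar M0) (FF Qbar (p * M0)) :=
    Algebra.IsAlgebraic.of_finite _ _
  exact Algebra.IsAlgebraic.isSeparable_of_perfectField

theorem Emb_card (hp : p.Prime) [NeZero M0] (hpM : ¬ p ∣ M0) :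
    Fintype.card (Option (Fin p)) = Module.finrank (FF Qbar M0) (FF Qbar (p * M0)) := by
  rw [finrank_FF hp hpM, Fintype.card_option, Fintype.card_fin]

/-- the norm identity `N_{F/F0} x = x * U_p (w x)`. -/
theorem norm_eq [NeZero p] [NeZero M0] (hp : p.Prime) (hpM : ¬ p ∣ M0)
    {w : FF Qbar (p * M0) ≃ₐ[Qbar] FF Qbar (p * M0)} (hw : IsWQ Qbar p M0 w) (ζ : Qbarˣ)
    (hζ : IsPrimitiveRoot ζ p) (x : FF Qbar (p * M0)) :
    ((Algebra.norm (FF Qbar M0) x : FF Qbar M0) : LaurentSeries Qbar) =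
      (x : LaurentSeries Qbar) * normT p ζ ((w x : FF Qbar (p * M0)) : LaurentSeries Qbar) := by
  have hfd : Module.Finite (FF Qbar M0) (FF Qbar (p * M0)) := finite_FF hp hpM
  have hsep := Emb_isSeparable hp hpM
  have key := GS.FW.exists_eq_prod_of_card_embeddings
    ((qExpand Qbar p).comp (FF Qbar M0).val.toRingHom) (emb w ζ)
    (fun i a => emb_algebraMap hp hpM hw ζ hζ i a) (emb_injective hp hpM hw ζ hζ)
    (Emb_card hp hpM) x
  rw [Fintype.prod_option] at key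
  have h1 : ∏ j : Fin p, emb w ζ (some j) x =
      ∏ j ∈ Finset.range p, scaleHom (ζ ^ j) ((w x : FF Qbar (p * M0)) : LaurentSeries Qbar) :=
    Fin.prod_univ_eq_prod_range
      (fun j => scaleHom (ζ ^ j) ((w x : FF Qbar (p * M0)) : LaurentSeries Qbar)) p
  rw [h1, ← qExpand_normT p ζ hζ, emb_none, ← map_mul] at key
  exact (qExpand_injective p key).symm

/-- the trace identity `Tr_{F/F0} x = x + p * (∑ a_{p n} q^n)(w x)`. -/
theorem trace_eq [NeZero p] [NeZero M0] (hp : p.Prime) (hpM : ¬ p ∣ M0)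
    {w : FF Qbar (p * M0) ≃ₐ[Qbar] FF Qbar (p * M0)} (hw : IsWQ Qbar p M0 w)
    (x : FF Qbar (p * M0)) :
    ((Algebra.trace (FF Qbar M0) (FF Qbar (p * M0)) x : FF Qbar M0) : LaurentSeries Qbar) =
      (x : LaurentSeries Qbar) +
        HahnSeries.C (p : Qbar) * Uop p ((w x : FF Qbar (p * M0)) : LaurentSeries Qbar) := by
  have hfd : Module.Finite (FF Qbar M0) (FF Qbar (p * M0)) := finite_FF hp hpM
  have hsep := Emb_isSeparable hp hpM
  obtain ⟨ζ₀, hζ₀⟩ := HasEnoughRootsOfUnity.exists_primitiveRoot Qbar p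
  obtain ⟨ζ, rfl⟩ : ∃ ζ : Qbarˣ, (ζ : Qbar) = ζ₀ := ⟨(hζ₀.isUnit (NeZero.ne p)).unit, rfl⟩
  have hζ : IsPrimitiveRoot ζ p := IsPrimitiveRoot.coe_units_iff.1 hζ₀
  have key := sum_eq_trace_of_card_embeddings
    ((qExpand Qbar p).comp (FF Qbar M0).val.toRingHom) (emb w ζ)
    (fun i a => emb_algebraMap hp hpM hw ζ hζ i a) (emb_injective hp hpM hw ζ hζ)
    (Emb_card hp hpM) x
  rw [Fintype.sum_option] at key
  have h1 : ∑ j : Fin p, emb w ζ (some j) x =
      ∑ j ∈ Finset.range p, scaleHom (ζ ^ j) ((w x : FF Qbar (p * M0)) : LaurentSeries Qbar) :=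
    Fin.sum_univ_eq_sum_range
      (fun j => scaleHom (ζ ^ j) ((w x : FF Qbar (p * M0)) : LaurentSeries Qbar)) p
  rw [h1, LP.Dep.sum_scaleHom p ζ hζ, emb_none] at key
  have h2 : HahnSeries.C (p : Qbar) = qExpand Qbar p (HahnSeries.C (p : Qbar)) :=
    (qExpand_C _ _).symm
  rw [h2, ← map_mul, ← map_add] at key
  exact (qExpand_injective p key).symm

end Fermat.Agent.S33.ND
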