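import Fermat.Agent.GR.F.Main
import Fermat.Agent.LP.Dep.Trace

/-!
# S33-ND, file UInt: `Uop p` preserves Gauss integrality

`u * g = f`, `f` integral, `g` integral.  `G := ∏_{j<p} scaleHom (ζ^j) g = qExpand p (normT p ζ g)`
(`GR.qExpand_normT`), so by the projection formula `Uop p (h * qExpand p s) = Uop p h * s`
  `Uop p u * normT p ζ g = Uop p (u * G) = Uop p (f * ∏_{0<j<p} scaleHom (ζ^j) g)`,
which is integral (`ζ^j` is a unit of `A`).  `normT p ζ g` is primitive if `g` is: its reduction is the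
Frobenius twist of `red g`.
-/

set_option autoImplicit false

noncomputable section

namespace Fermat.Agent.S33.ND

open Fermat.Agent.GR ModularCurve

variable {p : ℕ} {A : ValuationSubring Qbar}

theorem isInt_Uop [NeZero p] {f : LaurentSeries Qbar} (hf : IsInt A f) : IsInt A (Uop p f) :=
  fun _ => hf _

theorem UInt_mem_of_pow_eq_one {c : Qbar} {m : ℕ} (hm : 0 < m) (hc : c ^ m = 1) : c ∈ A := by
  by_contra h
  have h1 : 1 < A.valuation c := by
    rw [← not_le, ValuationSubring.valuation_le_one_iff]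
    exact h
  have h2 : 1 < A.valuation c ^ m := one_lt_pow₀ h1 hm.ne'
  rw [← map_pow, hc, map_one] at h2
  exact lt_irrefl _ h2

theorem isInt_scaleHom {c : Qbarˣ} {m : ℕ} (hm : 0 < m) (hc : c ^ m = 1) {f : LaurentSeries Qbar}
    (hf : IsInt A f) : IsInt A (scaleHom c f) := by
  intro n
  rw [scaleHom_coeff]
  refine A.mul_mem _ _ (UInt_mem_of_pow_eq_one hm ?_) (hf n)
  rw [← Units.val_pow_eq_pow_val, ← zpow_natCast, ← zpow_mul, mul_comm, zpow_mul, zpow_natCast, hc,
    one_zpow, Units.val_one]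

theorem UInt_isInt_mul {f g : LaurentSeries Qbar} (hf : IsInt A f) (hg : IsInt A g) :
    IsInt A (f * g) := by
  obtain ⟨f', rfl⟩ := (isInt_iff A).mp hf
  obtain ⟨g', rfl⟩ := (isInt_iff A).mp hg
  exact (isInt_iff A).mpr ⟨f' * g', map_mul _ _ _⟩

theorem UInt_isInt_prod {ι : Type*} (s : Finset ι) (f : ι → LaurentSeries Qbar)
    (hf : ∀ i ∈ s, IsInt A (f i)) : IsInt A (∏ i ∈ s, f i) := by
  classical
  induction s using Finset.induction_on with
  | empty =>
    rw [Finset.prod_empty]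
    exact (isInt_iff A).mpr ⟨1, map_one _⟩
  | insert a s ha ih =>
    rw [Finset.prod_insert ha]
    exact UInt_isInt_mul (hf a (Finset.mem_insert_self a s))
      (ih fun i hi => hf i (Finset.mem_insert_of_mem hi))

theorem UInt_scaleHom_qExpand [NeZero p] (c : Qbarˣ) (hc : c ^ p = 1) (f : LaurentSeries Qbar) :
    scaleHom c (qExpand Qbar p f) = qExpand Qbar p f := by
  ext n
  rw [scaleHom_coeff]
  by_cases hn : (p : ℤ) ∣ n
  · obtain ⟨m, rfl⟩ := hn
    rw [zpow_mul, zpow_natCast, hc, one_zpow, Units.val_one, one_mul]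
  · rw [qExpand_coeff_of_not_dvd p f hn, mul_zero]

/-- projection formula. -/
theorem Uop_mul_qExpand [NeZero p] (h s : LaurentSeries Qbar) :
    Uop p (h * qExpand Qbar p s) = Uop p h * s := by
  obtain ⟨ζ₀, hζ₀⟩ := HasEnoughRootsOfUnity.exists_primitiveRoot Qbar p
  obtain ⟨ζ, hζ⟩ : ∃ ζ : Qbarˣ, IsPrimitiveRoot ζ p :=
    ⟨(hζ₀.isUnit (NeZero.ne p)).unit, IsPrimitiveRoot.coe_units_iff.mp (by simpa using hζ₀)⟩
  have hp0 : (p : Qbar) ≠ 0 := Nat.cast_ne_zero.mpr (NeZero.ne p)
  have hCp : (HahnSeries.C (p : Qbar) : LaurentSeries Qbar) ≠ 0 := fun h0 =>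
    hp0 (HahnSeries.C_injective (by rw [h0, map_zero]))
  apply qExpand_injective (R := Qbar) p
  apply mul_left_cancel₀ hCp
  rw [← LP.Dep.sum_scaleHom p ζ hζ, map_mul, ← mul_assoc, ← LP.Dep.sum_scaleHom p ζ hζ,
    Finset.sum_mul]
  refine Finset.sum_congr rfl fun j _ => ?_
  rw [map_mul, UInt_scaleHom_qExpand _ (by rw [← pow_mul, mul_comm, pow_mul, hζ.pow_eq_one, one_pow])]

theorem isPrim_normT [Fact p.Prime] (hA : A.LiesOverPrime p) (ζ : Qbarˣ)
    (hζ : IsPrimitiveRoot ζ p) {g : LaurentSeries Qbar} (hg : IsPrim A g) :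
    IsPrim A (normT p ζ g) := by
  obtain ⟨g', rfl, hg'⟩ := (isPrim_iff A).mp hg
  have := charP_residueField A hA
  obtain ⟨z, hz, hz1⟩ := exists_unit_of_pow_eq_one A hA ζ hζ.pow_eq_one
  have hfrobinj : Function.Injective
      (coeffMap (frobenius (IsLocalRing.ResidueField A) p)) := by
    intro x y hxy
    ext k
    have := congrArg (fun s => s.coeff k) hxy
    exact (frobenius (IsLocalRing.ResidueField A) p).injective this
  refine (isPrim_iff A).mpr ⟨normT p z g', ?_, ?_⟩
  · rw [incl, coeffMap_normT, hz]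
  · rw [red, coeffMap_normT, hz1, normT_one_char]
    exact fun h => hg' (hfrobinj (by rw [map_zero]; exact h))

/-- `Uop p` preserves Gauss integrality, with the explicit denominator `normT p ζ g`. -/
theorem isInt_Uop_mul_normT [Fact p.Prime] (ζ : Qbarˣ) (hζ : IsPrimitiveRoot ζ p)
    {u f g : LaurentSeries Qbar} (hf : IsInt A f) (hg : IsInt A g) (h : u * g = f) :
    IsInt A (Uop p u * normT p ζ g) := by
  have hp : p.Prime := Fact.out
  rw [← Uop_mul_qExpand, qExpand_normT p ζ hζ, ← Finset.prod_range_mul_prod_Ico _ hp.pos,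
    Finset.prod_range_one, pow_zero, scaleHom_one, ← mul_assoc, h]
  refine isInt_Uop (UInt_isInt_mul hf (UInt_isInt_prod _ _ fun j _ => ?_))
  exact isInt_scaleHom hp.pos (by rw [← pow_mul, mul_comm, pow_mul, hζ.pow_eq_one, one_pow]) hg

end Fermat.Agent.S33.ND
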