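import Fermat.Agent.S33.ND.Approx
import Fermat.Agent.S33.ND.UInt
import Fermat.Agent.S33.ND.Emb

/-!
# S33-ND, file Dense: the residue field of `v_∞` on `FF Q̄ (p M0)` is the residue field of `FF Q̄ M0`

* `exists_trace_near`: `x' g₁ = f₁` (`f₁ g₁` primitive), `(w x') g₂ = f₂` (`f₂` integral, `g₂` primitive).  `z0 := Tr x' = x' + C p * Uop p (w x') ∈ FF M0`
  (`trace_eq`).  `D := normT p ζ g₂` is primitive (`isPrim_normT`), lies in `F` (`GR.B.normT_mem_FF_Qbar`), `h := Uop p (w x') * D` is integral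
  (`isInt_Uop_mul_normT`).  So `z0 * (g₁ D) = f₁ D + C p * h * g₁ =: a`, `a ≡ f₁ D` modulo `𝔪_A` (`p ∈ 𝔪_A`), `f₁ D` primitive: `a` is primitive,
  `a ∈ F` (left side), `z0 ≠ 0`, and `x' / z0 = (f₁ D) / a` is `NearOne` (constant `1`).
* `dense`: `exists_approx` + `exists_trace_near` + `NearOne.mul`.
-/

set_option autoImplicit false
set_option synthInstance.maxHeartbeats 400000

noncomputable section

namespace Fermat.Agent.S33.ND

open Fermat.Agent.GR Fermat.Agent.GS Fermat.Agent.GS.FW ModularCurve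

open scoped Fermat.Agent.GS.Inst

variable {p M0 : ℕ} {A : ValuationSubring Qbar}

/-- auxiliary: a primitive `p`-th root of unity in `Q̄`. -/
theorem Dense_exists_primitiveRoot (ℓ : ℕ) [NeZero ℓ] : ∃ ζ : Qbarˣ, IsPrimitiveRoot ζ ℓ := by
  obtain ⟨ζ, hζ⟩ := HasEnoughRootsOfUnity.exists_primitiveRoot Qbar ℓ
  exact ⟨hζ.isUnit (NeZero.ne ℓ) |>.unit, IsPrimitiveRoot.coe_units_iff.mp (by simpa using hζ)⟩

/-- auxiliary: the formal part of `exists_trace_near`. -/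
theorem Dense_formal (hA : A.LiesOverPrime p) {N : ℕ} {x z0 U D f₁ g₁ : LaurentSeries Qbar}
    (hz0 : z0 = x + HahnSeries.C (p : Qbar) * U) (hz0mem : z0 ∈ FF Qbar N)
    (hf₁ : f₁ ∈ FF Qbar N) (hg₁ : g₁ ∈ FF Qbar N) (hD : D ∈ FF Qbar N)
    (hf₁p : IsPrim A f₁) (hg₁p : IsPrim A g₁) (hDp : IsPrim A D) (hUD : IsInt A (U * D))
    (h₁ : x * g₁ = f₁) : z0 ≠ 0 ∧ NearOne A N (x / z0) := by
  obtain ⟨F₁, rfl, hF₁⟩ := (isPrim_iff A).1 hf₁p
  obtain ⟨G₁, rfl, hG₁⟩ := (isPrim_iff A).1 hg₁p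
  obtain ⟨D', rfl, hD'⟩ := (isPrim_iff A).1 hDp
  obtain ⟨H, hH⟩ := (isInt_iff A).1 hUD
  have hpA : (p : Qbar) ∈ A := ValuationSubring.nonunits_subset hA
  have hCp : incl A (HahnSeries.C (⟨(p : Qbar), hpA⟩ : A)) = HahnSeries.C (p : Qbar) :=
    coeffMap_single _ 0 _
  have hredp : red A (HahnSeries.C (⟨(p : Qbar), hpA⟩ : A)) = 0 := by
    have h1 : red A (HahnSeries.C (⟨(p : Qbar), hpA⟩ : A))
        = HahnSeries.C (IsLocalRing.residue A ⟨(p : Qbar), hpA⟩) := coeffMap_single _ 0 _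
    have h2 : IsLocalRing.residue A ⟨(p : Qbar), hpA⟩ = 0 := by
      rw [IsLocalRing.residue_eq_zero_iff, ← ValuationSubring.coe_mem_nonunits_iff]
      exact hA
    rw [h1, h2, map_zero]
  -- the numerator `a`
  set a : LaurentSeries A := F₁ * D' + HahnSeries.C (⟨(p : Qbar), hpA⟩ : A) * H * G₁ with ha
  have hreda : red A a = red A (F₁ * D') := by
    rw [ha, map_add, map_mul (red A) (_ * _), map_mul (red A) (HahnSeries.C _), hredp, zero_mul,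
      zero_mul, add_zero]
  have hFD : red A (F₁ * D') ≠ 0 := by
    rw [map_mul]
    exact mul_ne_zero hF₁ hD'
  have key : z0 * (incl A G₁ * incl A D') = incl A a := by
    rw [ha, map_add, map_mul, map_mul, map_mul, hCp, hH, hz0, ← h₁]
    ring
  have ha0 : incl A a ≠ 0 := Near_incl_ne_zero (by rw [hreda]; exact hFD)
  have hG0 : incl A G₁ ≠ 0 := Near_incl_ne_zero hG₁
  have hD0 : incl A D' ≠ 0 := Near_incl_ne_zero hD'
  have hz00 : z0 ≠ 0 := by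
    rintro rfl
    rw [zero_mul] at key
    exact ha0 key.symm
  refine ⟨hz00, Near_iff.mpr ⟨1, F₁ * D', a, one_ne_zero, ?_, ?_, hreda.symm, hFD, ?_⟩⟩
  · rw [map_mul]
    exact mul_mem hf₁ hD
  · rw [← key]
    exact mul_mem hz0mem (mul_mem hg₁ hD)
  · rw [← key, map_mul, ← h₁, map_one, one_mul]
    field_simp

theorem exists_trace_near [NeZero p] [NeZero M0] (hp : p.Prime) (hpM : ¬ p ∣ M0)
    (hA : A.LiesOverPrime p) {w : FF Qbar (p * M0) ≃ₐ[Qbar] FF Qbar (p * M0)}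
    (hw : IsWQ Qbar p M0 w) (x' : FF Qbar (p * M0)) {f₁ g₁ f₂ g₂ : LaurentSeries Qbar}
    (hf₁ : f₁ ∈ FF Qbar (p * M0)) (hg₁ : g₁ ∈ FF Qbar (p * M0)) (hf₁p : IsPrim A f₁)
    (hg₁p : IsPrim A g₁) (h₁ : (x' : LaurentSeries Qbar) * g₁ = f₁)
    (hg₂ : g₂ ∈ FF Qbar (p * M0)) (hf₂i : IsInt A f₂) (hg₂p : IsPrim A g₂)
    (h₂ : ((w x' : FF Qbar (p * M0)) : LaurentSeries Qbar) * g₂ = f₂) :
    ∃ z0 ∈ FF Qbar M0, z0 ≠ 0 ∧ NearOne A (p * M0) ((x' : LaurentSeries Qbar) / z0) := by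
  have : Fact p.Prime := ⟨hp⟩
  obtain ⟨ζ, hζ⟩ := Dense_exists_primitiveRoot p
  have htr := trace_eq hp hpM hw x'
  have hmem : ((Algebra.trace (FF Qbar M0) (FF Qbar (p * M0)) x' : FF Qbar M0) :
      LaurentSeries Qbar) ∈ FF Qbar M0 := (Algebra.trace (FF Qbar M0) (FF Qbar (p * M0)) x').2
  generalize ((Algebra.trace (FF Qbar M0) (FF Qbar (p * M0)) x' : FF Qbar M0) :
      LaurentSeries Qbar) = z0 at htr hmem
  have hD : normT p ζ g₂ ∈ FF Qbar (p * M0) :=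
    GR.B.normT_mem_FF_Qbar p (Dvd.intro _ rfl) ζ hζ hg₂
  obtain ⟨h0, hN⟩ := Dense_formal hA htr (Near_FF_le (Dvd.intro_left _ rfl) hmem) hf₁ hg₁ hD hf₁p
    hg₁p (isPrim_normT hA ζ hζ hg₂p) (isInt_Uop_mul_normT ζ hζ hf₂i hg₂p.1 h₂) h₁
  exact ⟨z0, hmem, h0, hN⟩

/-- (Dense) -/
theorem dense [NeZero p] [NeZero M0] (hp : p.Prime) (hpM : ¬ p ∣ M0) (hA : A.LiesOverPrime p)
    {z : LaurentSeries Qbar} (hz : z ∈ FF Qbar (p * M0)) (hz0 : z ≠ 0) :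
    ∃ z0 ∈ FF Qbar M0, z0 ≠ 0 ∧ NearOne A (p * M0) (z / z0) := by
  obtain ⟨ι⟩ := nonempty_Qbar_hom
  have hcop : p.Coprime M0 := (Nat.Prime.coprime_iff_not_dvd hp).2 hpM
  have hw : IsWQ Qbar p M0 (Fermat.Agent.GT.EMB.wQ Qbar p M0) := isWQ_wQ ι hcop
  obtain ⟨x', f₁, g₁, f₂, g₂, hf₁, hg₁, hf₁p, hg₁p, h₁, hg₂, hf₂i, hg₂p, h₂, hnear⟩ :=
    exists_approx hp hpM hA hw ⟨z, hz⟩ (fun h => hz0 (congrArg Subtype.val h))
  obtain ⟨z0, hz0mem, hz00, hnear'⟩ :=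
    exists_trace_near hp hpM hA hw x' hf₁ hg₁ hf₁p hg₁p h₁ hg₂ hf₂i hg₂p h₂
  refine ⟨z0, hz0mem, hz00, ?_⟩
  have hx0 : (x' : LaurentSeries Qbar) ≠ 0 := by
    intro h
    have := hnear'.ne_zero
    rw [h, zero_div] at this
    exact this rfl
  have e : z / z0 = z / (x' : LaurentSeries Qbar) * ((x' : LaurentSeries Qbar) / z0) := by
    field_simp
  rw [e]
  exact hnear.mul hnear'

end Fermat.Agent.S33.ND
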