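import Fermat.Agent.S33.Iface
import Fermat.Agent.GS.Export
import Fermat.Agent.GS.FW.Near
import Fermat.Agent.GR.H.Cyc

/-!
# S33-ND, file Hecke: (K2) `T_ℓ` (`ℓ ∤ N`) preserves the classes which are trivial at the Gauss valuation

`A` lies over `q`, `q ∣ N`, so `ℓ ≠ q`.  MODEL: `GS.FW.NearOne.normT` (`GS/FW/Near.lean`).
* `exists_unit_primitive`: `ζ` and `ζ⁻¹` are integral over `ℤ`, hence in `A` (as in the proof of `GR.exists_unit_of_pow_eq_one`, `GR/F/Red.lean`); its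
  reduction `ζ̄` satisfies `ζ̄ ^ ℓ = 1`; `ζ̄ ≠ 1`: otherwise `ζ - 1 ∈ 𝔪_A`, but `∏_{0<i<ℓ} (1 - ζ^i) = ℓ` is a unit of `A` (`ℓ ≠ q`; e.g.
  `IsPrimitiveRoot.sub_one_norm…`/`Polynomial.cyclotomic` evaluated at `1`, or see `S33/Ram0.lean` for this computation) and each factor is a
  multiple of `1 - ζ` in `A`.  `ℓ` prime: `IsPrimitiveRoot.mk_of_lt` / `isPrimitiveRoot_of_…prime` (`ζ̄ ^ ℓ = 1`, `ζ̄ ≠ 1`).
* `nearOne_heckeMulT`: `y = C c * (incl f / incl g)`, `red f = red g ≠ 0` (`Near_iff`).  `heckeMulT ℓ ζ (incl f) = incl (heckeMulT ℓ z f)`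
  (`coeffMap_heckeMulT`), `red (heckeMulT ℓ z f) = heckeMulT ℓ z̄ (red f) ≠ 0` (`heckeMulT_ne_zero`), `heckeMulT_mul/_div/_C`,
  membership: `GR.B.heckeMulT_mem_FF_Qbar`.
* `heckeTriv`: `TrivAt ↔ PowAt` (`GS.trivAt_of_powAt`, `powAt_of_trivAt`), `y z^n` near one gives
  `heckeMulT y * (heckeMulT z)^n` near one.
-/

set_option autoImplicit false

noncomputable section

namespace Fermat.Agent.S33.ND

open Fermat.Agent.GR Fermat.Agent.GS Fermat.Agent.GS.FW ModularCurve IsLocalRing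

variable {N n q ℓ : ℕ} {A : ValuationSubring Qbar}

/-- a primitive `ℓ`-th root of unity is a unit of `A` whose reduction is again primitive
(`ℓ` a prime different from the residue characteristic). -/
theorem exists_unit_primitive (hq : q.Prime) (hA : A.LiesOverPrime q) (hℓ : ℓ.Prime) (hℓq : ℓ ≠ q)
    (ζ : Qbarˣ) (hζ : IsPrimitiveRoot ζ ℓ) :
    ∃ z : (↥A)ˣ, Units.map (A.subtype : ↥A →* Qbar) z = ζ ∧
      IsPrimitiveRoot (Units.map (residue A : ↥A →* ResidueField A) z) ℓ := by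
  haveI : Fact ℓ.Prime := ⟨hℓ⟩
  have hℓ0 : ℓ ≠ 0 := hℓ.ne_zero
  have hmem : ∀ ξ : Qbarˣ, ξ ^ ℓ = 1 → (ξ : Qbar) ∈ A := by
    intro ξ hξ
    rw [← A.valuation_le_one_iff]
    have h1 : A.valuation (ξ : Qbar) ^ ℓ = 1 := by
      rw [← map_pow, ← Units.val_pow_eq_pow_val, hξ, Units.val_one, map_one]
    exact le_of_eq ((pow_eq_one_iff.mp h1).resolve_right hℓ0)
  have hζ1 : ζ ^ ℓ = 1 := hζ.pow_eq_one
  have hζ' : ζ⁻¹ ^ ℓ = 1 := by rw [inv_pow, hζ1, inv_one]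
  let z : (↥A)ˣ :=
    { val := ⟨ζ, hmem ζ hζ1⟩
      inv := ⟨(ζ⁻¹ : Qbarˣ), hmem ζ⁻¹ hζ'⟩
      val_inv := by
        apply Subtype.ext
        simp
      inv_val := by
        apply Subtype.ext
        simp }
  refine ⟨z, Units.ext rfl, ?_⟩
  have hz : z ^ ℓ = 1 := by
    apply Units.ext
    apply Subtype.ext
    have := congrArg (fun x : Qbarˣ => (x : Qbar)) hζ1
    simpa using this
  have h1 : (Units.map (residue A : ↥A →* ResidueField A) z) ^ ℓ = 1 := by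
    rw [← map_pow, hz, map_one]
  have hne : Units.map (residue A : ↥A →* ResidueField A) z ≠ 1 := by
    intro h
    have h2 : residue A (z : A) = 1 := congrArg Units.val h
    have h3 : residue A ((z : A) - 1) = 0 := by rw [map_sub, h2, map_one, sub_self]
    rw [residue_eq_zero_iff] at h3
    have h4 : ((ζ : Qbar) - 1) ∈ A.nonunits := ValuationSubring.coe_mem_nonunits_iff.mpr h3
    have hnd : ¬ q ∣ ℓ := fun hd => hℓq ((Nat.prime_dvd_prime_iff_eq hq hℓ).mp hd).symm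
    have h5 : (ζ : Qbar) = 1 := GR.H.Cyc_eq_of_sub_mem A q hq hA ℓ hnd _ _
      (by rw [← Units.val_pow_eq_pow_val, hζ1, Units.val_one]) (one_pow _) h4
    exact hζ.ne_one hℓ.one_lt (Units.ext h5)
  rw [← orderOf_eq_prime h1 hne]
  exact IsPrimitiveRoot.orderOf _

theorem nearOne_heckeMulT [NeZero N] [NeZero ℓ] (hq : q.Prime) (hA : A.LiesOverPrime q)
    (hℓ : ℓ.Prime) (hℓq : ℓ ≠ q) (hℓN : ¬ ℓ ∣ N) (ζ : Qbarˣ) (hζ : IsPrimitiveRoot ζ ℓ)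
    {y : LaurentSeries Qbar} (h : NearOne A N y) : NearOne A N (heckeMulT ℓ ζ y) := by
  haveI : Fact ℓ.Prime := ⟨hℓ⟩
  obtain ⟨c, f, g, hc, hf, hg, hfg, hf0, rfl⟩ := Near_iff.mp h
  obtain ⟨z, hz, hz1⟩ := exists_unit_primitive hq hA hℓ hℓq ζ hζ
  have hi : ∀ x : LaurentSeries A, incl A (heckeMulT ℓ z x) = heckeMulT ℓ ζ (incl A x) := by
    intro x
    rw [incl, coeffMap_heckeMulT, hz]
  have hr : ∀ x : LaurentSeries A, red A (heckeMulT ℓ z x) =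
      heckeMulT ℓ (Units.map (residue A : ↥A →* ResidueField A) z) (red A x) := by
    intro x
    rw [red, coeffMap_heckeMulT]
  refine Near_iff.mpr ⟨c ^ (ℓ + 1), heckeMulT ℓ z f, heckeMulT ℓ z g, pow_ne_zero _ hc,
    ?_, ?_, ?_, ?_, ?_⟩
  · rw [hi]; exact GR.B.heckeMulT_mem_FF_Qbar ℓ hℓN ζ hζ hf
  · rw [hi]; exact GR.B.heckeMulT_mem_FF_Qbar ℓ hℓN ζ hζ hg
  · rw [hr, hr, hfg]
  · rw [hr]
    exact heckeMulT_ne_zero ℓ _ hz1 hf0
  · rw [hi, hi, heckeMulT_mul ℓ ζ hζ, heckeMulT_div ℓ ζ hζ, heckeMulT_C]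

theorem Hecke_heckeMulT_pow [NeZero ℓ] (ζ : Qbarˣ) (hζ : IsPrimitiveRoot ζ ℓ)
    (z : LaurentSeries Qbar) (m : ℕ) : heckeMulT ℓ ζ (z ^ m) = heckeMulT ℓ ζ z ^ m := by
  induction m with
  | zero =>
    have h := heckeMulT_C ℓ ζ (1 : Qbar)
    rw [one_pow, map_one] at h
    rw [pow_zero, pow_zero, h]
  | succ m ih => rw [pow_succ, pow_succ, heckeMulT_mul ℓ ζ hζ, ih]

/-- (K2) -/
theorem heckeTriv [NeZero N] (hn : 0 < n) (hq : q.Prime) (hqN : q ∣ N) (hA : A.LiesOverPrime q) :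
    HeckeTriv N n A := by
  intro ℓ _ hℓ hℓN ζ hζ y hy
  have hℓq : ℓ ≠ q := by
    rintro rfl
    exact hℓN hqN
  haveI : Fact ℓ.Prime := ⟨hℓ⟩
  obtain ⟨z, hz, hz0, hnear⟩ := powAt_of_trivAt hy
  apply trivAt_of_powAt hn
  refine ⟨heckeMulT ℓ ζ z, GR.B.heckeMulT_mem_FF_Qbar ℓ hℓN ζ hζ hz,
    heckeMulT_ne_zero ℓ ζ hζ hz0, ?_⟩
  have h1 := nearOne_heckeMulT hq hA hℓ hℓq hℓN ζ hζ hnear
  rwa [heckeMulT_mul ℓ ζ hζ, Hecke_heckeMulT_pow ζ hζ] at h1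

end Fermat.Agent.S33.ND
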