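import Fermat.Agent.GS.Inst.Setup
import Fermat.Agent.GR.E.BR10
import Fermat.Agent.GR.S.FF.NormFormula

/-!
# S33-ND, file Deg: `FF Q̄ (p M0)` as a finite extension of degree `p + 1` of `FF Q̄ M0`

The algebra structure is the scoped instance `GS.Inst.algFF` (= inclusion).

* `isFF_FF`: `GR.E.modularFunctionFieldBar_eq_FF N : modularFunctionFieldBar N = FF Qb N` and
  `⟨S24.jF N, S24.transcendental_jF N, inferInstance⟩ : IsFF _ (modularFunctionFieldBar N)`
  (this is `GR.S.isFF_bar` in `GR/S/Hecke/Inputs.lean`; do not import that file, it is heavy).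
* `finrank_FF`: `GR.E.relfinrank_FF_mul_prime M0 p hp hpM : (FF Qb M0).relfinrank (FF Qb (M0 * p)) = p + 1`,
  `mul_comm`, `IntermediateField.relfinrank_eq_finrank_of_le hle` (finrank of `extendScalars hle` over `FF M0`), and the
  obvious `FF M0`-linear equivalence `extendScalars hle ≃ FF (p * M0)` (identity on the underlying series;
  `LinearEquiv.finrank_eq`).
-/

set_option autoImplicit false
set_option synthInstance.maxHeartbeats 400000

noncomputable section

namespace Fermat.Agent.S33.ND

open Fermat.Agent.GR Fermat.Agent.GS.Inst ModularCurve AlgebraicCurve Fermat.Agent.S17.FF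

variable {p M0 : ℕ}

theorem isFF_FF (N : ℕ) [NeZero N] : IsFF Qbar (FF Qbar N) := by
  have h : IsFF Qbar (modularFunctionFieldBar N) :=
    ⟨Fermat.Agent.S24.jF N, Fermat.Agent.S24.transcendental_jF N, inferInstance⟩
  rw [GR.E.modularFunctionFieldBar_eq_FF N] at h
  exact h

theorem finrank_FF [NeZero M0] (hp : p.Prime) (hpM : ¬ p ∣ M0) :
    Module.finrank (FF Qbar M0) (FF Qbar (p * M0)) = p + 1 := by
  have hle : FF Qbar M0 ≤ FF Qbar (p * M0) := FF_le Qbar p M0
  have h1 : (FF Qbar M0).relfinrank (FF Qbar (p * M0)) = p + 1 := by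
    rw [mul_comm p M0]
    exact GR.E.relfinrank_FF_mul_prime M0 p hp hpM
  rw [IntermediateField.relfinrank_eq_finrank_of_le hle] at h1
  rw [← h1]
  let e : FF Qbar (p * M0) ≃ₗ[FF Qbar M0] IntermediateField.extendScalars hle :=
    { toFun := fun x => ⟨(x : LaurentSeries Qbar), x.2⟩
      invFun := fun x => ⟨(x : LaurentSeries Qbar), x.2⟩
      left_inv := fun x => rfl
      right_inv := fun x => rfl
      map_add' := fun x y => rfl
      map_smul' := fun a x => by
        apply Subtype.ext
        rw [Algebra.smul_def]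
        rfl }
  exact e.finrank_eq

theorem finite_FF [NeZero M0] (hp : p.Prime) (hpM : ¬ p ∣ M0) :
    Module.Finite (FF Qbar M0) (FF Qbar (p * M0)) :=
  Module.finite_of_finrank_pos (by rw [finrank_FF hp hpM]; omega)

end Fermat.Agent.S33.ND
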