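import Fermat.Agent.S33.Iface
import Fermat.Agent.GS.WQ
import Fermat.Agent.GS.FW.AL
import Fermat.Agent.LP.Dep.ContractQ
import Fermat.Agent.GR.B.Export

/-!
# S33-ND, file Nodal: (N)

`U := normT p ζ`, `N = p M0`, `~` is `KummerEquiv N p`.  `U` maps `FF N` to `FF N` (`GR.B.normT_mem_FF_Qbar`), is multiplicative
(`normT_mul`, `LP.Dep.ContractQ_normT_pow/_div/_ne_zero`), so it respects `~` (`kummerEquiv_normT`).
`pop w ζ y = (w y) * U y ~ 1` and `pop w ζ (w y) = y * U (w y) ~ 1` (`w (w y) = y`, `IsWQ.invol`).  Hence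
`U y ~ (w y)⁻¹`, `U (w y) ~ y⁻¹`, `U (U y) ~ (U (w y))⁻¹ ~ y` and in the same way `U (U (w y)) ~ w y` (`sq_equiv`).
By induction `U^[2 r] y ~ y` (`iterate_equiv`).  `LP.Dep.exists_deepAt_iterate`: `DeepAt N p A (U^[r] y)` for `r ≥ r₀`; take `r = 2 r₀`;
`LP.Dep.DeepAt.congr`: `DeepAt N p A y`; the same for `w y`.  Apply `NodalInertiaP`.
-/

set_option autoImplicit false

noncomputable section

namespace Fermat.Agent.S33.ND

open Fermat.Agent.GR Fermat.Agent.GS ModularCurve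

variable {p M0 N : ℕ} {A : ValuationSubring Qbar}

theorem kummerEquiv_normT [NeZero N] [NeZero p] (hpN : p ∣ N) (n : ℕ) (ζ : Qbarˣ)
    (hζ : IsPrimitiveRoot ζ p) {u v : LaurentSeries Qbar} (h : KummerEquiv N n u v) :
    KummerEquiv N n (normT p ζ u) (normT p ζ v) := by
  obtain ⟨z, hz, hz0, rfl⟩ := h
  exact ⟨normT p ζ z, B.normT_mem_FF_Qbar p hpN ζ hζ hz, LP.Dep.ContractQ_normT_ne_zero p ζ hζ hz0,
    by rw [normT_mul p ζ hζ, LP.Dep.ContractQ_normT_pow p ζ hζ]⟩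

/-- `a * U b ~ 1`, `b * U a ~ 1` ⟹ `U (U b) ~ b`. -/
theorem sq_equiv [NeZero N] [NeZero p] (hpN : p ∣ N) (n : ℕ) (ζ : Qbarˣ)
    (hζ : IsPrimitiveRoot ζ p) {a b : LaurentSeries Qbar} (ha : a ∈ FF Qbar N) (ha0 : a ≠ 0)
    (hb : b ∈ FF Qbar N) (hb0 : b ≠ 0) (h1 : KummerEquiv N n 1 (a * normT p ζ b))
    (h2 : KummerEquiv N n 1 (b * normT p ζ a)) :
    KummerEquiv N n (normT p ζ (normT p ζ b)) b := by
  obtain ⟨z1, hz1, hz10, e1⟩ := h1
  obtain ⟨z2, hz2, hz20, e2⟩ := h2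
  rw [one_mul] at e1 e2
  have hU1 : normT p ζ z1 ≠ 0 := LP.Dep.ContractQ_normT_ne_zero p ζ hζ hz10
  have hUa : normT p ζ a ≠ 0 := LP.Dep.ContractQ_normT_ne_zero p ζ hζ ha0
  have e3 : normT p ζ b = z1 ^ n / a := by
    rw [eq_div_iff ha0, mul_comm]
    exact e1
  have e4 : normT p ζ a = z2 ^ n / b := by
    rw [eq_div_iff hb0, mul_comm]
    exact e2
  refine ⟨z2 / normT p ζ z1, div_mem hz2 (B.normT_mem_FF_Qbar p hpN ζ hζ hz1),
    div_ne_zero hz20 hU1, ?_⟩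
  rw [e3, LP.Dep.ContractQ_normT_div p ζ hζ, LP.Dep.ContractQ_normT_pow p ζ hζ, e4, div_pow]
  have h1 : normT p ζ z1 ^ n ≠ 0 := pow_ne_zero _ hU1
  have h2 : z2 ^ n ≠ 0 := pow_ne_zero _ hz20
  field_simp

theorem iterate_equiv [NeZero N] [NeZero p] (hpN : p ∣ N) (n : ℕ) (ζ : Qbarˣ)
    (hζ : IsPrimitiveRoot ζ p) {b : LaurentSeries Qbar}
    (h : KummerEquiv N n (normT p ζ (normT p ζ b)) b) (r : ℕ) :
    KummerEquiv N n ((normT p ζ)^[2 * r] b) b := by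
  induction r with
  | zero => exact KummerEquiv.refl _
  | succ r ih =>
    have e : 2 * (r + 1) = (2 * r + 1) + 1 := by ring
    rw [e, Function.iterate_succ_apply', Function.iterate_succ_apply']
    exact (kummerEquiv_normT hpN n ζ hζ (kummerEquiv_normT hpN n ζ hζ ih)).trans h

/-- (N) -/
theorem nodalOrd [NeZero p] (hp : p.Prime) (hM0 : M0 ≠ 0) (hpM : ¬ p ∣ M0)
    (hA : A.LiesOverPrime p) (hnod : LP.NodalInertiaP p M0 A) : NodalOrd p M0 A := by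
  intro w hw ζ hζ y hy ht1 ht2 hk1 hk2 τ hτ c hc
  haveI : Fact p.Prime := ⟨hp⟩
  haveI : NeZero (p * M0) := ⟨mul_ne_zero hp.ne_zero hM0⟩
  obtain ⟨ι⟩ := nonempty_Qbar_hom
  have hcop : p.Coprime M0 := (Nat.Prime.coprime_iff_not_dvd hp).mpr hpM
  have hpN : p ∣ p * M0 := Dvd.intro _ rfl
  have hinv : w (w y) = y := hw.invol ι hcop y
  have hy0 : (y : LaurentSeries Qbar) ≠ 0 := hy.1
  have hy0' : y ≠ 0 := fun h => hy0 (by rw [h]; rfl)
  have hwy0 : ((w y : FF Qbar (p * M0)) : LaurentSeries Qbar) ≠ 0 := by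
    intro h
    have h1 : w y = 0 := Subtype.ext h
    exact hy0' ((map_eq_zero_iff w w.injective).mp h1)
  have hk2' : KummerEquiv (p * M0) p 1
      ((y : LaurentSeries Qbar) * normT p ζ ((w y : FF Qbar (p * M0)) : LaurentSeries Qbar)) := by
    have := hk2
    unfold pop at this
    rwa [hinv] at this
  have hk1' : KummerEquiv (p * M0) p 1
      (((w y : FF Qbar (p * M0)) : LaurentSeries Qbar) * normT p ζ (y : LaurentSeries Qbar)) := hk1
  have s1 := sq_equiv hpN p ζ hζ (w y).2 hwy0 y.2 hy0 hk1' hk2'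
  have s2 := sq_equiv hpN p ζ hζ y.2 hy0 (w y).2 hwy0 hk2' hk1'
  obtain ⟨r1, hr1⟩ := LP.Dep.exists_deepAt_iterate hpN hA ζ hζ ht1
  obtain ⟨r2, hr2⟩ := LP.Dep.exists_deepAt_iterate hpN hA ζ hζ ht2
  have d1 : LP.DeepAt (p * M0) p A (y : LaurentSeries Qbar) :=
    LP.Dep.DeepAt.congr (iterate_equiv hpN p ζ hζ s1 r1) (hr1 (2 * r1) (by omega))
  have d2 : LP.DeepAt (p * M0) p A ((w y : FF Qbar (p * M0)) : LaurentSeries Qbar) :=
    LP.Dep.DeepAt.congr (iterate_equiv hpN p ζ hζ s2 r2) (hr2 (2 * r2) (by omega))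
  exact hnod w hw y hy d1 d2 τ hτ c hc

end Fermat.Agent.S33.ND
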