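import Fermat.Agent.S33.ND.PopTriv
import Fermat.Agent.S33.ND.Hecke
import Fermat.Agent.S33.ND.Nodal
import Fermat.Agent.S33.Ram0

/-!
# S33-ND: the six fields of `GeoInput` delivered by ND / RAM
-/

set_option autoImplicit false

namespace Fermat.Agent.S33.ND

open Fermat.Agent.GR

variable {p M0 : ℕ} {A : ValuationSubring Qbar}

/-- (RAM1) -/
theorem ram1 (hp : p.Prime) (hp2 : p ≠ 2) (hA : A.LiesOverPrime p) : Ram1 p A := by
  have : NeZero p := ⟨hp.ne_zero⟩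
  obtain ⟨ζ, hζ⟩ := HasEnoughRootsOfUnity.exists_primitiveRoot Qbar p
  obtain ⟨σ, hσ, hne⟩ := exists_inertia_ne A hp hp2 hA hζ
  exact ⟨σ, hσ, ζ, hζ.pow_eq_one, hne⟩

/-- `GeoInput` from the export of LP-NOD (nodal) and the two exports of S33-SM. -/
theorem geoInput [NeZero p] (hp : p.Prime) (hp2 : p ≠ 2) (hM0 : M0 ≠ 0) (hpM : ¬ p ∣ M0)
    (hA : A.LiesOverPrime p) (hnod : LP.NodalInertiaP p M0 A) (hG : GoodOrd p M0 A)
    (hS : SSCrux p M0 A) : GeoInput p M0 A where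
  popKummer := popKummer hp hM0 hpM
  popTriv := popTriv hp hM0 hpM hA
  heckeTriv :=
    haveI : NeZero (p * M0) := ⟨mul_ne_zero hp.ne_zero hM0⟩
    heckeTriv hp.pos hp (Dvd.intro M0 rfl) hA
  trivRoot := trivRoot hp hA
  goodOrd := hG
  ssCrux := hS
  nodalOrd := nodalOrd hp hM0 hpM hA hnod
  ram1 := ram1 hp hp2 hA

end Fermat.Agent.S33.ND
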