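import Fermat.Agent.S33.ND.T0
import Fermat.Agent.GS.FW.Near
import Fermat.Agent.LP.Dep.DepthQ

/-!
# S33-ND, file Approx: every function is, up to a constant and a function `≡ 1` at `v_∞`, integral at `v_0`

`F = FF Q̄ (p M0)`.  Let `z ∈ F`, `z ≠ 0`.  `z = C κ * (f / g)`, `f g` primitive in `F` (`GR.exists_normalized`); `x := f / g`;
`w x = C κ' * (f' / g')`, `f' g'` primitive in `F`.  `s := s0 p`, `t := t0 p = C p * t1`, `θ := s / (s + t)`; `w θ = t / (s + t)` (`w_t0`, `w_s0`).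
`s + t` is primitive (`≡ s`).  `M` with `p^M κ' ∈ A` (`exists_pow_mul_mem`).   `x' := θ^M x = (s^M f) / ((s+t)^M g)`:
 (i) numerator and denominator primitive, in `F`;
 (ii) `w x' * ((s+t)^M g') = C (p^M κ') * t1^M * f'` integral (it lies in `F` because the left side does);
 (iii) `z / x' = C κ * ((s+t)^M / s^M)` is `NearOne` (`(s+t)^M ≡ s^M`).
* `exists_pow_mul_mem`: `κ = 0` trivial; else `c := κ⁻¹`; if `c ∉ 𝔪_A` then `κ ∈ A`, `M = 0`.  In general: `L = ℚ(κ)`, `R = A ∩ L` is a DVR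
  (`GR.E.isDiscreteValuationRing_comap`), `p ∈ 𝔪_R`, every nonzero element of `L` is `unit * ϖ^a` (`a ∈ ℤ`), `ϖ ∣ p`.  Or: `κ` is a root of a monic
  polynomial over `ℚ`; `p^M κ` is then integral over `ℤ_(p) ⊆ A` for `M` large, and `A` is integrally closed.
-/

set_option autoImplicit false

noncomputable section

namespace Fermat.Agent.S33.ND

open Fermat.Agent.GR Fermat.Agent.GS Fermat.Agent.GS.FW ModularCurve

variable {p M0 : ℕ} {A : ValuationSubring Qbar}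

theorem exists_pow_mul_mem (hp : p.Prime) (hA : A.LiesOverPrime p) (κ : Qbar) :
    ∃ M : ℕ, (p : Qbar) ^ M * κ ∈ A := by
  classical
  by_cases hκ : κ ∈ A
  · exact ⟨0, by simpa using hκ⟩
  have hκ0 : κ ≠ 0 := fun h => hκ (h ▸ A.zero_mem)
  set d : Qbar := κ⁻¹ with hd
  have hdA : d ∈ A := (A.mem_or_inv_mem κ).resolve_left hκ
  have hd0 : d ≠ 0 := inv_ne_zero hκ0
  let L : IntermediateField ℚ Qbar := IntermediateField.adjoin ℚ {d}
  have : FiniteDimensional ℚ L := normalize_finiteDimensional_adjoin d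
  have := isPrincipalIdealRing_comap A L
  let R' := A.comap (algebraMap L Qbar)
  have hnu : ∀ z : R', (((z : L) : Qbar)) ∈ A.nonunits → z ∈ IsLocalRing.maximalIdeal R' := by
    intro z hz
    rw [IsLocalRing.mem_maximalIdeal, mem_nonunits_iff]
    intro hu
    obtain ⟨u, hu⟩ := hu.exists_right_inv
    have h1 : (((z : L) : Qbar)) * (((u : L) : Qbar)) = 1 := by
      have := congrArg (fun t : R' => (((t : L) : Qbar))) hu
      simpa using this
    have h2 : (((z : L) : Qbar)) * (((u : L) : Qbar)) ∈ A.nonunits :=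
      Fermat.Agent.LP.Dep.DepthQ_mul_mem_nonunits hz u.2
    rw [h1, ValuationSubring.mem_nonunits_iff, map_one] at h2
    exact lt_irrefl _ h2
  let d' : R' := ⟨⟨d, IntermediateField.mem_adjoin_simple_self ℚ d⟩, hdA⟩
  have hd'0 : d' ≠ 0 := by
    intro h0
    exact hd0 (congrArg (fun t : R' => (((t : L) : Qbar))) h0)
  have hpcoe : ((((p : R') : L) : Qbar)) = (p : Qbar) := by simp
  have hp' : (p : R') ∈ IsLocalRing.maximalIdeal R' := hnu _ (by rw [hpcoe]; exact hA)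
  have hp0 : (p : R') ≠ 0 := by
    intro h0
    have h1 := hpcoe
    rw [h0] at h1
    have hp : (p : Qbar) ≠ 0 := by exact_mod_cast hp.ne_zero
    exact hp (by simpa using h1.symm)
  have : IsDiscreteValuationRing R' :=
    { not_a_field' := by
        intro hbot
        rw [hbot, Ideal.mem_bot] at hp'
        exact hp0 hp' }
  obtain ⟨ϖ, hϖ⟩ := IsDiscreteValuationRing.exists_irreducible R'
  obtain ⟨e, he⟩ := IsDiscreteValuationRing.associated_pow_irreducible hp0 hϖ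
  obtain ⟨a, ha⟩ := IsDiscreteValuationRing.associated_pow_irreducible hd'0 hϖ
  have he0 : e ≠ 0 := by
    rintro rfl
    rw [pow_zero] at he
    exact (IsLocalRing.mem_maximalIdeal _).1 hp' (associated_one_iff_isUnit.1 he)
  have h1 : d' ∣ (p : R') ^ a :=
    (ha.dvd.trans (pow_dvd_pow_of_dvd (dvd_pow_self ϖ he0) a)).trans (he.pow_pow (n := a)).symm.dvd
  obtain ⟨x, hx⟩ := h1
  refine ⟨a, ?_⟩
  have h2 : (p : Qbar) ^ a = d * (((x : L) : Qbar)) := by
    have := congrArg (fun t : R' => (((t : L) : Qbar))) hx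
    simpa using this
  rw [h2, hd, mul_comm κ⁻¹, mul_assoc, inv_mul_cancel₀ hκ0, mul_one]
  exact x.2

theorem isPrim_of_cong {a b : LaurentSeries Qbar} (ha : IsPrim A a) (hb : IsInt A b)
    (hab : Cong A a b) : IsPrim A b := by
  obtain ⟨f, rfl, hf⟩ := (isPrim_iff A).mp ha
  obtain ⟨g, rfl⟩ := (isInt_iff A).mp hb
  exact (isPrim_incl_iff A g).mpr ((cong_incl_iff A f g).mp hab ▸ hf)

theorem Approx_isPrim_ne_zero {a : LaurentSeries Qbar} (ha : IsPrim A a) : a ≠ 0 := by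
  obtain ⟨f, rfl, hf⟩ := (isPrim_iff A).mp ha
  exact Near_incl_ne_zero hf

theorem Approx_isPrim_mul {a b : LaurentSeries Qbar} (ha : IsPrim A a) (hb : IsPrim A b) :
    IsPrim A (a * b) := by
  obtain ⟨f, rfl, hf⟩ := (isPrim_iff A).mp ha
  obtain ⟨g, rfl, hg⟩ := (isPrim_iff A).mp hb
  rw [← map_mul]
  exact (isPrim_incl_iff A _).mpr (by rw [map_mul]; exact mul_ne_zero hf hg)

theorem Approx_isPrim_pow {a : LaurentSeries Qbar} (ha : IsPrim A a) (k : ℕ) :
    IsPrim A (a ^ k) := by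
  obtain ⟨f, rfl, hf⟩ := (isPrim_iff A).mp ha
  rw [← map_pow]
  exact (isPrim_incl_iff A _).mpr (by rw [map_pow]; exact pow_ne_zero _ hf)

theorem Approx_isInt_mul {a b : LaurentSeries Qbar} (ha : IsInt A a) (hb : IsInt A b) :
    IsInt A (a * b) := by
  obtain ⟨f, rfl⟩ := (isInt_iff A).mp ha
  obtain ⟨g, rfl⟩ := (isInt_iff A).mp hb
  rw [← map_mul]
  exact (isInt_iff A).mpr ⟨_, rfl⟩

theorem Approx_isInt_add {a b : LaurentSeries Qbar} (ha : IsInt A a) (hb : IsInt A b) :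
    IsInt A (a + b) := by
  obtain ⟨f, rfl⟩ := (isInt_iff A).mp ha
  obtain ⟨g, rfl⟩ := (isInt_iff A).mp hb
  rw [← map_add]
  exact (isInt_iff A).mpr ⟨_, rfl⟩

theorem Approx_isInt_pow {a : LaurentSeries Qbar} (ha : IsInt A a) (k : ℕ) : IsInt A (a ^ k) := by
  obtain ⟨f, rfl⟩ := (isInt_iff A).mp ha
  rw [← map_pow]
  exact (isInt_iff A).mpr ⟨_, rfl⟩

theorem Approx_isInt_C {c : Qbar} (hc : c ∈ A) : IsInt A (HahnSeries.C c : LaurentSeries Qbar) := by
  intro n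
  rw [HahnSeries.C_apply, HahnSeries.coeff_single]
  split_ifs
  · exact hc
  · exact A.zero_mem

theorem Approx_cong_pow_symm {a b : LaurentSeries Qbar} (ha : IsInt A a) (hb : IsInt A b)
    (h : Cong A a b) (k : ℕ) : Cong A (b ^ k) (a ^ k) := by
  obtain ⟨f, rfl⟩ := (isInt_iff A).mp ha
  obtain ⟨g, rfl⟩ := (isInt_iff A).mp hb
  rw [← map_pow, ← map_pow, cong_incl_iff, map_pow, map_pow, (cong_incl_iff A f g).mp h]

theorem exists_approx [NeZero p] [NeZero M0] (hp : p.Prime) (hpM : ¬ p ∣ M0)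
    (hA : A.LiesOverPrime p) {w : FF Qbar (p * M0) ≃ₐ[Qbar] FF Qbar (p * M0)}
    (hw : IsWQ Qbar p M0 w) (z : FF Qbar (p * M0)) (hz : z ≠ 0) :
    ∃ (x' : FF Qbar (p * M0)) (f₁ g₁ f₂ g₂ : LaurentSeries Qbar),
      f₁ ∈ FF Qbar (p * M0) ∧ g₁ ∈ FF Qbar (p * M0) ∧ IsPrim A f₁ ∧ IsPrim A g₁ ∧
      (x' : LaurentSeries Qbar) * g₁ = f₁ ∧
      g₂ ∈ FF Qbar (p * M0) ∧ IsInt A f₂ ∧ IsPrim A g₂ ∧
      ((w x' : FF Qbar (p * M0)) : LaurentSeries Qbar) * g₂ = f₂ ∧
      NearOne A (p * M0) ((z : LaurentSeries Qbar) / (x' : LaurentSeries Qbar)) := by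
  have hz' : (z : LaurentSeries Qbar) ≠ 0 := fun h => hz (Subtype.ext h)
  obtain ⟨κ, f, g, hκ, hf, hg, hpf, hpg, hzeq⟩ := exists_normalized (A := A) (p * M0) z.2 hz'
  have hf0 := Approx_isPrim_ne_zero hpf
  have hg0 := Approx_isPrim_ne_zero hpg
  let fF : FF Qbar (p * M0) := ⟨f, hf⟩
  let gF : FF Qbar (p * M0) := ⟨g, hg⟩
  let x : FF Qbar (p * M0) := fF / gF
  have hx0 : x ≠ 0 := div_ne_zero (fun h => hf0 (congrArg Subtype.val h))
    (fun h => hg0 (congrArg Subtype.val h))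
  have hwx0 : ((w x : FF Qbar (p * M0)) : LaurentSeries Qbar) ≠ 0 := fun h =>
    hx0 (w.injective (by rw [map_zero]; exact Subtype.ext h))
  obtain ⟨κ', f', g', hκ', hf', hg', hpf', hpg', hwx⟩ :=
    exists_normalized (A := A) (p * M0) (w x).2 hwx0
  have hg'0 := Approx_isPrim_ne_zero hpg'
  obtain ⟨t1, ht1, ht⟩ := exists_t1 hp A
  have hps := isPrim_s0 hp A
  have hs0 := Approx_isPrim_ne_zero hps
  let sF : FF Qbar (p * M0) := ⟨s0 p, s0_mem⟩
  let tF : FF Qbar (p * M0) := ⟨t0 p, t0_mem⟩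
  have hwt : w tF = sF := w_t0 hw
  have hws : w sF = tF := w_s0 hw
  have hpA : (p : Qbar) ∈ A := A.nonunits_subset hA
  have hint_t : IsInt A (t0 p) := by
    rw [ht]
    exact Approx_isInt_mul (Approx_isInt_C hpA) ht1
  have hint_st : IsInt A (s0 p + t0 p) := Approx_isInt_add hps.1 hint_t
  have hcong : Cong A (s0 p) (s0 p + t0 p) := by
    intro n
    rw [HahnSeries.coeff_add, ht, HahnSeries.C_mul_eq_smul, HahnSeries.coeff_smul, smul_eq_mul]
    have e : (s0 p).coeff n - ((s0 p).coeff n + (p : Qbar) * t1.coeff n) =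
        -((p : Qbar) * t1.coeff n) := by ring
    rw [e, ValuationSubring.mem_nonunits_iff, Valuation.map_neg,
      ← ValuationSubring.mem_nonunits_iff]
    exact Fermat.Agent.LP.Dep.DepthQ_mul_mem_nonunits hA (ht1 n)
  have hpst : IsPrim A (s0 p + t0 p) := isPrim_of_cong hps hint_st hcong
  have hst0 := Approx_isPrim_ne_zero hpst
  have hst_mem : s0 p + t0 p ∈ FF Qbar (p * M0) := add_mem s0_mem t0_mem
  obtain ⟨M, hM⟩ := exists_pow_mul_mem hp hA κ'
  let θ : FF Qbar (p * M0) := sF / (sF + tF)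
  have hx' : ((θ ^ M * x : FF Qbar (p * M0)) : LaurentSeries Qbar) =
      (s0 p / (s0 p + t0 p)) ^ M * (f / g) := rfl
  have hwx' : ((w (θ ^ M * x) : FF Qbar (p * M0)) : LaurentSeries Qbar) =
      (t0 p / (t0 p + s0 p)) ^ M * (HahnSeries.C κ' * (f' / g')) := by
    rw [map_mul, map_pow, map_div₀, map_add, hws, hwt, ← hwx]
    rfl
  refine ⟨θ ^ M * x, s0 p ^ M * f, (s0 p + t0 p) ^ M * g,
    HahnSeries.C ((p : Qbar) ^ M * κ') * t1 ^ M * f', (s0 p + t0 p) ^ M * g',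
    mul_mem (pow_mem s0_mem M) hf, mul_mem (pow_mem hst_mem M) hg,
    Approx_isPrim_mul (Approx_isPrim_pow hps M) hpf,
    Approx_isPrim_mul (Approx_isPrim_pow hpst M) hpg, ?_,
    mul_mem (pow_mem hst_mem M) hg',
    Approx_isInt_mul (Approx_isInt_mul (Approx_isInt_C hM) (Approx_isInt_pow ht1 M)) hpf'.1,
    Approx_isPrim_mul (Approx_isPrim_pow hpst M) hpg', ?_, ?_⟩
  · rw [hx', div_pow]
    field_simp
  · rw [hwx', add_comm (t0 p) (s0 p), map_mul, map_pow]
    have e : t0 p ^ M = HahnSeries.C (p : Qbar) ^ M * t1 ^ M := by rw [ht, mul_pow]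
    rw [div_pow, e]
    field_simp
  · refine ⟨κ, (s0 p + t0 p) ^ M, s0 p ^ M, hκ, pow_mem hst_mem M, pow_mem s0_mem M,
      Approx_isPrim_pow hpst M, Approx_isInt_pow hps.1 M,
      Approx_cong_pow_symm hps.1 hint_st hcong M, ?_⟩
    rw [hx', hzeq, div_pow]
    field_simp

end Fermat.Agent.S33.ND
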