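import Fermat.Agent.S33.ND.Emb
import Fermat.Agent.S33.Iface
import Fermat.Agent.GS.FW.AL

/-!
# S33-ND, file PopKummer: (P1) `pop w ζ y` is a Kummer function of level `M0`

`x := w y`; `w x = y` (`IsWQ.invol`), so `pop w ζ y = x * normT p ζ (w x) = N_{F/F0} x` (`norm_eq`).
`x` is a Kummer function of level `p M0` (`GS.FW.isKummer_algEquiv`), `x ≠ 0`, so `N x ≠ 0` (`Algebra.norm_ne_zero_iff`) and for every
place `v` of `F0`:  `v.ord (N x) = ∑ w ∈ v.fiber F, w.ord x`  (`GR.S.ord_norm_eq_sum`; instances: `isFF_FF`, `finite_FF`,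
`GS.Inst.towerL`, `hasPrincipalDivisors_of_isFF`), a sum of multiples of `p` (`Finset.dvd_sum`).
-/

set_option autoImplicit false
set_option synthInstance.maxHeartbeats 400000

noncomputable section

namespace Fermat.Agent.S33.ND

open Fermat.Agent.GR Fermat.Agent.GS Fermat.Agent.GS.Inst ModularCurve AlgebraicCurve

variable {p M0 : ℕ}

/-- the norm of a Kummer function is a Kummer function. -/
theorem isKummer_norm [NeZero M0] (hp : p.Prime) (hpM : ¬ p ∣ M0) (n : ℕ) (x : FF Qbar (p * M0))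
    (hx : IsKummer (N := p * M0) n (x : LaurentSeries Qbar)) :
    IsKummer (N := M0) n ((Algebra.norm (FF Qbar M0) x : FF Qbar M0) : LaurentSeries Qbar) := by
  classical
  obtain ⟨h0, hmem, hord⟩ := hx
  have hx0 : x ≠ 0 := fun h => h0 (by rw [h]; rfl)
  have : NeZero (p * M0) := ⟨Nat.mul_ne_zero hp.ne_zero (NeZero.ne M0)⟩
  have := isFF_FF M0
  have := isFF_FF (p * M0)
  have := finite_FF (p := p) (M0 := M0) hp hpM
  have : HasPrincipalDivisors Qbar (FF Qbar (p * M0)) := Fermat.Agent.GR.S.hasPrincipalDivisors_of_isFF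
  have hN0 : Algebra.norm (FF Qbar M0) x ≠ 0 := Algebra.norm_ne_zero_iff.mpr hx0
  refine ⟨fun h => hN0 (Subtype.ext h), (Algebra.norm (FF Qbar M0) x).2, fun v => ?_⟩
  show (n : ℤ) ∣ v.ord (Algebra.norm (FF Qbar M0) x)
  rw [Fermat.Agent.GR.S.ord_norm_eq_sum v x hx0]
  exact Finset.dvd_sum fun w _ => hord w

theorem pop_eq_norm [NeZero p] [NeZero M0] (hp : p.Prime) (hpM : ¬ p ∣ M0)
    {w : FF Qbar (p * M0) ≃ₐ[Qbar] FF Qbar (p * M0)} (hw : IsWQ Qbar p M0 w) (ζ : Qbarˣ)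
    (hζ : IsPrimitiveRoot ζ p) (y : FF Qbar (p * M0)) :
    pop w ζ y = ((Algebra.norm (FF Qbar M0) (w y) : FF Qbar M0) : LaurentSeries Qbar) := by
  obtain ⟨ι⟩ := nonempty_Qbar_hom
  have : NeZero (p * M0) := ⟨Nat.mul_ne_zero hp.ne_zero (NeZero.ne M0)⟩
  have hcop : p.Coprime M0 := (Nat.Prime.coprime_iff_not_dvd hp).2 hpM
  rw [norm_eq hp hpM hw ζ hζ (w y), hw.invol ι hcop y]
  rfl

/-- (P1) -/
theorem popKummer [NeZero p] (hp : p.Prime) (hM0 : M0 ≠ 0) (hpM : ¬ p ∣ M0) : PopKummer p M0 := by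
  intro w hw ζ hζ y hy
  have : NeZero M0 := ⟨hM0⟩
  rw [pop_eq_norm hp hpM hw ζ hζ y]
  exact isKummer_norm hp hpM p (w y) (GS.FW.isKummer_algEquiv w y hy)

end Fermat.Agent.S33.ND
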