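import Fermat.Agent.S33.Iface
import Fermat.Agent.GS.Export

/-!
# S33-ND, file Root: (K3)

`u^(p^j) * z^(p^k) = a / b`, `a ≡ b`, `a` primitive, `j < k`.  Put `t := u * z^(p^(k-j))`, so `t^(p^j) = a / b`.
`t = C κ * (F / G)`, `F G` primitive in `FF` (`GR.exists_normalized`).  Then `C (κ^(p^j)) * F^(p^j) * b = a * G^(p^j)`; `b` is primitive
(`red b = red a ≠ 0`); comparing contents (`root_unit` below) `κ^(p^j)` is a unit of `A`, hence `κ ∈ A`, `κ⁻¹ ∈ A`.  Reduce:
`(κ̄ F̄)^(p^j) = Ḡ^(p^j)` in `k((q))`, a domain of characteristic `p` (`GR.charP_laurentSeries`, `GR.charP_residueField`):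
`κ̄ F̄ = Ḡ` (`frobenius_inj` iterated / `sub_pow_char_pow`).  So `t = (C κ * F) / G` with `C κ * F ≡ G`, `C κ * F` primitive, and
`t = u * (z^(p^(k-j-1)))^p`.
-/

set_option autoImplicit false

noncomputable section

namespace Fermat.Agent.S33.ND

open Fermat.Agent.GR Fermat.Agent.GS ModularCurve

variable {N p : ℕ} {A : ValuationSubring Qbar}

theorem Root_unit_of_not_mem {x : Qbar} (h : x ∉ A.nonunits) : x ≠ 0 ∧ x⁻¹ ∈ A := by
  rw [ValuationSubring.mem_nonunits_iff, not_lt] at h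
  constructor
  · rintro rfl
    rw [map_zero] at h
    exact absurd h (not_le.mpr zero_lt_one)
  · rw [← A.valuation_le_one_iff, map_inv₀]
    exact inv_le_one_of_one_le₀ h

theorem Root_coeffMap_C {R S : Type*} [CommRing R] [CommRing S] (f : R →+* S) (c : R) :
    coeffMap f (HahnSeries.C c : LaurentSeries R) = HahnSeries.C (f c) := by
  show coeffMap f (HahnSeries.single 0 c) = HahnSeries.single 0 (f c)
  rw [coeffMap_single]

/-- comparison of contents. -/
theorem root_unit {c : Qbar} {f g : LaurentSeries Qbar} (hf : IsPrim A f) (hg : IsPrim A g)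
    (h : HahnSeries.C c * f = g) : c ∈ A ∧ c⁻¹ ∈ A := by
  have hco : ∀ n : ℤ, g.coeff n = c * f.coeff n := by
    intro n
    rw [← h, normalize_coeff_C_mul]
  constructor
  · obtain ⟨m, hm⟩ := hf.2
    obtain ⟨h0, hinv⟩ := Root_unit_of_not_mem hm
    have : c = g.coeff m * (f.coeff m)⁻¹ := by
      rw [hco m, mul_inv_cancel_right₀ h0]
    rw [this]
    exact A.mul_mem _ _ (hg.1 m) hinv
  · obtain ⟨n, hn⟩ := hg.2
    obtain ⟨h0, hinv⟩ := Root_unit_of_not_mem hn
    have hc0 : c ≠ 0 := by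
      rintro rfl
      rw [hco n, zero_mul] at h0
      exact h0 rfl
    have : c⁻¹ = f.coeff n * (g.coeff n)⁻¹ := by
      rw [hco n, mul_inv, mul_comm c⁻¹, ← mul_assoc]
      have hf0 : f.coeff n ≠ 0 := by
        intro hf0
        rw [hco n, hf0, mul_zero] at h0
        exact h0 rfl
      rw [mul_inv_cancel₀ hf0, one_mul]
    rw [this]
    exact A.mul_mem _ _ (hf.1 n) hinv

/-- a `p^j`-th root of a function which is `≡ 1` is `≡ 1`. -/
theorem root_core (hp : p.Prime) (hA : A.LiesOverPrime p) (j : ℕ) {t a b : LaurentSeries Qbar}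
    (ht : t ∈ FF Qbar N) (ha : IsPrim A a) (hb : IsInt A b) (hab : Cong A a b)
    (h : t ^ (p ^ j) = a / b) :
    ∃ a' b' : LaurentSeries Qbar, a' ∈ FF Qbar N ∧ b' ∈ FF Qbar N ∧ IsPrim A a' ∧ IsInt A b' ∧
      Cong A a' b' ∧ t = a' / b' := by
  have : Fact p.Prime := ⟨hp⟩
  have hchar : CharP (IsLocalRing.ResidueField A) p := charP_residueField A hA
  have hcharL : CharP (LaurentSeries (IsLocalRing.ResidueField A)) p := charP_laurentSeries p
  obtain ⟨a₁, rfl, ha₁⟩ := (isPrim_iff A).mp ha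
  obtain ⟨b₁, rfl⟩ := (isInt_iff A).mp hb
  have hred : red A a₁ = red A b₁ := (cong_incl_iff A a₁ b₁).mp hab
  have hb₁ : red A b₁ ≠ 0 := hred ▸ ha₁
  have ha0 : incl A a₁ ≠ 0 := by
    intro h0
    apply ha₁
    rw [(map_eq_zero_iff _ (incl_injective A)).mp h0, map_zero]
  have hb0 : incl A b₁ ≠ 0 := by
    intro h0
    apply hb₁
    rw [(map_eq_zero_iff _ (incl_injective A)).mp h0, map_zero]
  have ht0 : t ≠ 0 := by
    rintro rfl
    rw [zero_pow (pow_ne_zero j hp.ne_zero)] at h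
    exact div_ne_zero ha0 hb0 h.symm
  obtain ⟨κ, F, G, hκ0, hF, hG, hFp, hGp, htFG⟩ := exists_normalized A N ht ht0
  obtain ⟨F₁, rfl, hF₁⟩ := (isPrim_iff A).mp hFp
  obtain ⟨G₁, rfl, hG₁⟩ := (isPrim_iff A).mp hGp
  have hG0 : incl A G₁ ≠ 0 := by
    intro h0
    apply hG₁
    rw [(map_eq_zero_iff _ (incl_injective A)).mp h0, map_zero]
  -- the relation
  have hrel : HahnSeries.C (κ ^ (p ^ j)) * (incl A (F₁ ^ (p ^ j) * b₁)) = incl A (a₁ * G₁ ^ (p ^ j)) := by
    rw [htFG, mul_pow, div_pow] at h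
    simp only [map_mul, map_pow]
    have hGP : incl A G₁ ^ (p ^ j) ≠ 0 := pow_ne_zero _ hG0
    field_simp at h
    linear_combination h
  have hunit := root_unit (A := A)
    ((isPrim_incl_iff A _).mpr (by
      rw [map_mul, map_pow]
      exact mul_ne_zero (pow_ne_zero _ hF₁) hb₁))
    ((isPrim_incl_iff A _).mpr (by
      rw [map_mul, map_pow]
      exact mul_ne_zero ha₁ (pow_ne_zero _ hG₁))) hrel
  have hκA : κ ∈ A := by
    rw [← A.valuation_le_one_iff]
    have h1 := (A.valuation_le_one_iff _).mpr hunit.1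
    rw [map_pow] at h1
    exact (pow_le_one_iff_of_nonneg zero_le (pow_ne_zero j hp.ne_zero)).mp h1
  -- pass to `A((q))`
  have hC : (HahnSeries.C κ : LaurentSeries Qbar) = incl A (HahnSeries.C (⟨κ, hκA⟩ : A)) := by
    unfold incl
    rw [Root_coeffMap_C]
    rfl
  have hrel₁ : (HahnSeries.C (⟨κ, hκA⟩ : A) * F₁) ^ (p ^ j) * b₁ = a₁ * G₁ ^ (p ^ j) := by
    apply incl_injective A
    rw [← hrel, map_pow, hC, map_mul, map_pow, map_mul, map_mul, map_pow, mul_pow]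
    ring
  have hrel₂ := congrArg (red A) hrel₁
  rw [map_mul, map_mul, map_pow, map_pow, hred, mul_comm (red A b₁)] at hrel₂
  have hrel₃ := mul_right_cancel₀ hb₁ hrel₂
  have hrel₄ : red A (HahnSeries.C (⟨κ, hκA⟩ : A) * F₁) = red A G₁ := by
    have h5 : (red A (HahnSeries.C (⟨κ, hκA⟩ : A) * F₁) - red A G₁) ^ (p ^ j) = 0 := by
      rw [sub_pow_char_pow, hrel₃, sub_self]
    exact sub_eq_zero.mp (pow_eq_zero_iff (pow_ne_zero j hp.ne_zero) |>.mp h5)
  refine ⟨incl A (HahnSeries.C (⟨κ, hκA⟩ : A) * F₁), incl A G₁, ?_, hG, ?_, hGp.1, ?_, ?_⟩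
  · rw [map_mul, ← hC]
    exact mul_mem (C_mem_FF κ) hF
  · rw [isPrim_incl_iff, hrel₄]
    exact hG₁
  · rw [cong_incl_iff, hrel₄]
  · rw [htFG, map_mul, ← hC, mul_div_assoc]

/-- (K3) -/
theorem trivRoot (hp : p.Prime) (hA : A.LiesOverPrime p) : TrivRoot N p A := by
  intro k j hjk u hu hu0 htriv
  obtain ⟨a, b, -, -, hpa, hib, hab, z, hz, hz0, hy⟩ := htriv
  obtain ⟨m, rfl⟩ : ∃ m, k = j + (m + 1) := ⟨k - j - 1, by omega⟩
  have ht : u * z ^ (p ^ (m + 1)) ∈ FF Qbar N := mul_mem hu (pow_mem hz _)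
  have hpow : (u * z ^ (p ^ (m + 1))) ^ (p ^ j) = a / b := by
    rw [hy, mul_pow, ← pow_mul, ← pow_add, add_comm (m + 1) j]
  obtain ⟨a', b', ha', hb', hpa', hib', hab', ht'⟩ := root_core hp hA j ht hpa hib hab hpow
  refine ⟨a', b', ha', hb', hpa', hib', hab', z ^ (p ^ m), pow_mem hz _, pow_ne_zero _ hz0, ?_⟩
  rw [← ht', ← pow_mul, ← pow_succ]

end Fermat.Agent.S33.ND
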