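import Fermat.Agent.S33.ND.Dense
import Fermat.Agent.S33.ND.PopKummer
import Fermat.Agent.S33.ND.Root
import Fermat.Agent.GS.FW.Pow
import Fermat.Agent.GS.Export

/-!
# S33-ND, file PopTriv: (P2)

* `nearOne_descend`: `t ∈ FF N`, `t = C c * (a / b)` with `a ≡ b`, `a` primitive (`a b` anywhere).  `t = C κ * (F / G)`, `F G` primitive in `FF N`
  (`GR.exists_normalized`).  `C (κ / c) * (F * b) = a * G`, both `F b` and `a G` primitive: `u := κ / c` is a unit of `A` (`root_unit`);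
  reduce: `ū F̄ b̄ = ā Ḡ`, `ā = b̄ ≠ 0`: `ū F̄ = Ḡ`.  So `t = C c * ((C u * F) / G)`, `C u * F ≡ G`, primitive, in `FF N`.
* `popTriv`: `y0 := pop w ζ y ∈ FF M0` (`pop_eq_norm`).  `PowAt A N p y0` (`N = p M0`): `PowAt.mul` of `PowAt (w y)` and `PowAt.normT` of `PowAt y`
  (`GS.powAt_of_trivAt`).  So `NearOne A N (y0 * z^p)`, `z ∈ FF N`, `z ≠ 0`.  `dense`: `z0 ∈ FF M0` with `NearOne A N (z / z0)`.  Then
  `y0 * z0^p = (y0 * z^p) / (z / z0)^p` is `NearOne A N` (`NearOne.div`, `.pow`) and lies in `FF M0`: `nearOne_descend`; `PowAt A M0 p y0`;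
  `GS.trivAt_of_powAt`.
-/

set_option autoImplicit false
set_option synthInstance.maxHeartbeats 400000

noncomputable section

namespace Fermat.Agent.S33.ND

open Fermat.Agent.GR Fermat.Agent.GS Fermat.Agent.GS.FW ModularCurve

variable {p M0 N N' : ℕ} {A : ValuationSubring Qbar}

theorem nearOne_descend {t : LaurentSeries Qbar} (ht : t ∈ FF Qbar N) (h : NearOne A N' t) :
    NearOne A N t := by
  have ht0 := h.ne_zero
  obtain ⟨c, a, b, hc, -, -, hab, ha0, hta⟩ := Near_iff.mp h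
  obtain ⟨κ, F, G, hκ, hF, hG, hFp, hGp, htF⟩ := exists_normalized A N ht ht0
  obtain ⟨F', rfl, hF'⟩ := (isPrim_iff A).1 hFp
  obtain ⟨G', rfl, hG'⟩ := (isPrim_iff A).1 hGp
  have hb0 : red A b ≠ 0 := hab ▸ ha0
  have hia : incl A a ≠ 0 := Near_incl_ne_zero ha0
  have hib : incl A b ≠ 0 := Near_incl_ne_zero hb0
  have hiF : incl A F' ≠ 0 := Near_incl_ne_zero hF'
  have hiG : incl A G' ≠ 0 := Near_incl_ne_zero hG'
  have hCc : (HahnSeries.C c : LaurentSeries Qbar) ≠ 0 := Near_C_ne_zero hc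
  have hCdiv : (HahnSeries.C (κ / c) : LaurentSeries Qbar) = HahnSeries.C κ / HahnSeries.C c :=
    map_div₀ (HahnSeries.C : Qbar →+* LaurentSeries Qbar) κ c
  have key : HahnSeries.C (κ / c) * (incl A F' * incl A b) = incl A a * incl A G' := by
    have e := htF.symm.trans hta
    rw [hCdiv]
    field_simp
    field_simp at e
    linear_combination e
  obtain ⟨hu, -⟩ := root_unit (A := A) (c := κ / c) (f := incl A (F' * b)) (g := incl A (a * G'))
    ((isPrim_incl_iff A _).2 (by rw [map_mul]; exact mul_ne_zero hF' hb0))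
    ((isPrim_incl_iff A _).2 (by rw [map_mul]; exact mul_ne_zero ha0 hG'))
    (by rw [map_mul, map_mul]; exact key)
  have hCu : incl A (HahnSeries.C (⟨κ / c, hu⟩ : A)) = HahnSeries.C (κ / c) :=
    coeffMap_single _ 0 _
  have key' : HahnSeries.C (⟨κ / c, hu⟩ : A) * F' * b = a * G' := by
    apply incl_injective A
    rw [map_mul, map_mul, map_mul, hCu, mul_assoc]
    exact key
  have hred : red A (HahnSeries.C (⟨κ / c, hu⟩ : A) * F') = red A G' := by
    have e := congrArg (red A) key'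
    rw [map_mul, map_mul (red A) a, ← hab, mul_comm (red A a)] at e
    exact mul_right_cancel₀ ha0 e
  refine Near_iff.mpr ⟨c, HahnSeries.C (⟨κ / c, hu⟩ : A) * F', G', hc, ?_, hG, hred, ?_, ?_⟩
  · rw [map_mul, hCu]
    exact mul_mem (C_mem_FF _) hF
  · rw [hred]
    exact hG'
  · rw [map_mul, hCu, htF, hCdiv]
    field_simp

/-- (P2) -/
theorem popTriv [NeZero p] (hp : p.Prime) (hM0 : M0 ≠ 0) (hpM : ¬ p ∣ M0)
    (hA : A.LiesOverPrime p) : PopTriv p M0 A := by
  intro w hw ζ hζ y _ h1 h2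
  have : NeZero M0 := ⟨hM0⟩
  have : Fact p.Prime := ⟨hp⟩
  have : NeZero (p * M0) := ⟨mul_ne_zero hp.ne_zero hM0⟩
  have hmem : pop w ζ y ∈ FF Qbar M0 := by
    rw [pop_eq_norm hp hpM hw ζ hζ y]
    exact Subtype.property _
  have hpow : PowAt A (p * M0) p (pop w ζ y) :=
    (powAt_of_trivAt h2).mul ((powAt_of_trivAt h1).normT hA (Dvd.intro _ rfl) ζ hζ)
  obtain ⟨z, hz, hz0, hnear⟩ := hpow
  obtain ⟨z0, hz0mem, hz00, hnear'⟩ := dense hp hpM hA hz hz0
  have e : pop w ζ y * z0 ^ p = (pop w ζ y * z ^ p) / (z / z0) ^ p := by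
    rw [div_pow, eq_div_iff (div_ne_zero (pow_ne_zero p hz0) (pow_ne_zero p hz00)), mul_assoc,
      mul_div_cancel₀ _ (pow_ne_zero p hz00)]
  have h3 : NearOne A (p * M0) (pop w ζ y * z0 ^ p) := by
    rw [e]
    exact hnear.div (hnear'.pow p)
  have h4 : NearOne A M0 (pop w ζ y * z0 ^ p) :=
    nearOne_descend (mul_mem hmem (pow_mem hz0mem p)) h3
  exact trivAt_of_powAt hp.pos ⟨z0, hz0mem, hz00, h4⟩

end Fermat.Agent.S33.ND
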