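import Fermat.Agent.GS.WQ
import Fermat.Agent.GR.F.Main

/-!
# S33-ND, file T0: the functions `t0 = j(q^p) - j(q)^p` and `s0 = w t0 = j(q) - j(q^p)^p`

* `t0 = C p * t1` with `t1` integral: `t0 = coeffMap (Int.castRingHom Q̄) T`, `T = qExpand ℤ p (jqModC ℤ) - (jqModC ℤ)^p` (`coeffMap_qExpand`,
  `coeffMap_jqModC`); modulo `p` (`coeffMap (Int.castRingHom (ZMod p))`) `T` vanishes: `GR.pow_char_eq_qExpand` (`GR/F/Frob.lean`) and
  `frobenius (ZMod p) p = id` (`ZMod.pow_card`); so every coefficient of `T` is divisible by `p` (`ZMod.intCast_zmod_eq_zero_iff_dvd` /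
  `(ZMod.intCast_zmod_eq_zero_iff_dvd _ p).1`); define `t1` by the quotients (support inside the support of `T`), integers are in `A`.
* `s0` is integral and its coefficient at `-(p * p)` is `-1` (`coeff_jqModC_pow_self`-type Prelude lemmas
  `Thm_ModularCurve_coeff_jqModC_pow_self`, `..._neg_one`, `qExpand_coeff_mul`; `j(q)` has no term of degree `< -1`): primitive.
  ALTERNATIVE for primitivity: `red s0 = J - J(q^p)^p ≠ 0` because the orders differ.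
* `w` exchanges them: `IsWQ` on the generators `j(q^1)`, `j(q^p)` (`a b = p`, `d = 1`), `map_sub`, `map_pow`.
-/

set_option autoImplicit false

noncomputable section

namespace Fermat.Agent.S33.ND

open Fermat.Agent.GR Fermat.Agent.GS ModularCurve

variable {p M0 : ℕ} {A : ValuationSubring Qbar}

/-- `j(q^p) - j(q)^p`. -/
def t0 (p : ℕ) [NeZero p] : LaurentSeries Qbar := qExpand Qbar p (jqModC Qbar) - jqModC Qbar ^ p

/-- `j(q) - j(q^p)^p`. -/
def s0 (p : ℕ) [NeZero p] : LaurentSeries Qbar := jqModC Qbar - qExpand Qbar p (jqModC Qbar) ^ p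

theorem T0_jp_mem [NeZero p] : qExpand Qbar p (jqModC Qbar) ∈ FF Qbar (p * M0) :=
  jqModCd_mem_full Qbar (p * M0) (Dvd.intro M0 rfl)

theorem T0_j_mem : jqModC Qbar ∈ FF Qbar (p * M0) := jqModC_mem_full Qbar (p * M0)

theorem t0_mem [NeZero p] : t0 p ∈ FF Qbar (p * M0) := by
  exact sub_mem T0_jp_mem (pow_mem T0_j_mem p)

theorem s0_mem [NeZero p] : s0 p ∈ FF Qbar (p * M0) := by
  exact sub_mem T0_j_mem (pow_mem T0_jp_mem p)

theorem T0_w_jp [NeZero p] {w : FF Qbar (p * M0) ≃ₐ[Qbar] FF Qbar (p * M0)}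
    (hw : IsWQ Qbar p M0 w) :
    w ⟨qExpand Qbar p (jqModC Qbar), T0_jp_mem⟩ = ⟨jqModC Qbar, T0_j_mem⟩ := by
  have : NeZero (p * 1) := ⟨by rw [mul_one]; exact NeZero.ne p⟩
  have h := hw p 1 1 (mul_one p) (one_dvd M0) ⟨qExpand Qbar p (jqModC Qbar), T0_jp_mem⟩
    (qExpand_congr (mul_one p).symm _)
  apply Subtype.ext
  rw [h, qExpand_congr (mul_one 1), qExpand_one_apply]

theorem T0_w_j [NeZero p] {w : FF Qbar (p * M0) ≃ₐ[Qbar] FF Qbar (p * M0)}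
    (hw : IsWQ Qbar p M0 w) :
    w ⟨jqModC Qbar, T0_j_mem⟩ = ⟨qExpand Qbar p (jqModC Qbar), T0_jp_mem⟩ := by
  have : NeZero (p * 1) := ⟨by rw [mul_one]; exact NeZero.ne p⟩
  have h := hw 1 p 1 (one_mul p) (one_dvd M0) ⟨jqModC Qbar, T0_j_mem⟩
    (by rw [qExpand_congr (mul_one 1), qExpand_one_apply])
  apply Subtype.ext
  rw [h, qExpand_congr (mul_one p)]

theorem w_t0 [NeZero p] {w : FF Qbar (p * M0) ≃ₐ[Qbar] FF Qbar (p * M0)}
    (hw : IsWQ Qbar p M0 w) : w ⟨t0 p, t0_mem⟩ = ⟨s0 p, s0_mem⟩ := by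
  have e1 : (⟨t0 p, t0_mem⟩ : FF Qbar (p * M0)) =
      ⟨qExpand Qbar p (jqModC Qbar), T0_jp_mem⟩ - ⟨jqModC Qbar, T0_j_mem⟩ ^ p := Subtype.ext rfl
  have e2 : (⟨s0 p, s0_mem⟩ : FF Qbar (p * M0)) =
      ⟨jqModC Qbar, T0_j_mem⟩ - ⟨qExpand Qbar p (jqModC Qbar), T0_jp_mem⟩ ^ p := Subtype.ext rfl
  rw [e1, e2, map_sub, map_pow, T0_w_jp hw, T0_w_j hw]

theorem w_s0 [NeZero p] {w : FF Qbar (p * M0) ≃ₐ[Qbar] FF Qbar (p * M0)}
    (hw : IsWQ Qbar p M0 w) : w ⟨s0 p, s0_mem⟩ = ⟨t0 p, t0_mem⟩ := by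
  have e1 : (⟨t0 p, t0_mem⟩ : FF Qbar (p * M0)) =
      ⟨qExpand Qbar p (jqModC Qbar), T0_jp_mem⟩ - ⟨jqModC Qbar, T0_j_mem⟩ ^ p := Subtype.ext rfl
  have e2 : (⟨s0 p, s0_mem⟩ : FF Qbar (p * M0)) =
      ⟨jqModC Qbar, T0_j_mem⟩ - ⟨qExpand Qbar p (jqModC Qbar), T0_jp_mem⟩ ^ p := Subtype.ext rfl
  rw [e1, e2, map_sub, map_pow, T0_w_jp hw, T0_w_j hw]

/-- `t0` has integer coefficients. -/
theorem T0_t0_eq [NeZero p] :
    t0 p = coeffMap (Int.castRingHom Qbar) (qExpand ℤ p (jqModC ℤ) - jqModC ℤ ^ p) := by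
  rw [map_sub, map_pow, coeffMap_qExpand, coeffMap_jqModC]
  rfl

/-- `s0` has integer coefficients. -/
theorem T0_s0_eq [NeZero p] :
    s0 p = coeffMap (Int.castRingHom Qbar) (jqModC ℤ - qExpand ℤ p (jqModC ℤ) ^ p) := by
  rw [map_sub, map_pow, coeffMap_qExpand, coeffMap_jqModC]
  rfl

/-- the coefficients of `j(q^p) - j(q)^p` are divisible by `p`. -/
theorem T0_dvd_coeff [NeZero p] (hp : p.Prime) (n : ℤ) :
    (p : ℤ) ∣ (qExpand ℤ p (jqModC ℤ) - jqModC ℤ ^ p).coeff n := by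
  have : Fact p.Prime := ⟨hp⟩
  have h0 : coeffMap (Int.castRingHom (ZMod p)) (qExpand ℤ p (jqModC ℤ) - jqModC ℤ ^ p) = 0 := by
    rw [map_sub, map_pow, coeffMap_qExpand, coeffMap_jqModC, pow_char_eq_qExpand p,
      coeffMap_congr (ZMod.frobenius_zmod p), coeffMap_id, sub_self]
  have h1 := congrArg (fun f : LaurentSeries (ZMod p) => f.coeff n) h0
  simp only [coeffMap_coeff, HahnSeries.coeff_zero, eq_intCast] at h1
  exact (ZMod.intCast_zmod_eq_zero_iff_dvd _ p).1 h1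

theorem exists_t1 [NeZero p] (hp : p.Prime) (A : ValuationSubring Qbar) :
    ∃ t1 : LaurentSeries Qbar, IsInt A t1 ∧ t0 p = HahnSeries.C (p : Qbar) * t1 := by
  have hp0 : (p : Qbar) ≠ 0 := by exact_mod_cast hp.ne_zero
  refine ⟨HahnSeries.C ((p : Qbar)⁻¹) * t0 p, fun n => ?_, ?_⟩
  · obtain ⟨k, hk⟩ := T0_dvd_coeff hp n
    rw [HahnSeries.C_mul_eq_smul, HahnSeries.coeff_smul, T0_t0_eq, coeffMap_coeff, hk, smul_eq_mul,
      eq_intCast]
    push_cast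
    rw [inv_mul_cancel_left₀ hp0]
    exact intCast_mem A k
  · rw [← mul_assoc, ← map_mul, mul_inv_cancel₀ hp0, map_one, one_mul]

theorem isPrim_s0 [NeZero p] (hp : p.Prime) (A : ValuationSubring Qbar) : IsPrim A (s0 p) := by
  refine ⟨fun n => ?_, (p : ℤ) * (-(p : ℤ)), ?_⟩
  · rw [T0_s0_eq, coeffMap_coeff, eq_intCast]
    exact intCast_mem A _
  · have h1 : (jqModC Qbar).coeff ((p : ℤ) * (-(p : ℤ))) = 0 := by
      have h := coeff_jqModC_pow_of_lt Qbar (b := 1) (m := (p : ℤ) * (-(p : ℤ))) (by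
        have h2 : (2 : ℤ) ≤ p := by exact_mod_cast hp.two_le
        push_cast
        nlinarith)
      rwa [pow_one] at h
    have h2 : (qExpand Qbar p (jqModC Qbar) ^ p).coeff ((p : ℤ) * (-(p : ℤ))) = 1 := by
      rw [← map_pow, qExpand_coeff_mul, coeff_jqModC_pow_self]
    have h3 : (s0 p).coeff ((p : ℤ) * (-(p : ℤ))) = -1 := by
      unfold s0
      rw [HahnSeries.coeff_sub, h1, h2, zero_sub]
    rw [h3, ValuationSubring.mem_nonunits_iff, Valuation.map_neg, map_one]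
    exact lt_irrefl _

end Fermat.Agent.S33.ND
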